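/-
Programme S33 (design report 1237, helper3), bricks O1: GENERIC function orders.

`Flat44.FunOrder p M act` (helper44) is the concrete form of a finite flat commutative group scheme
over `ℤ_(p)` with generic fibre the `Gal(ℚ̄/ℚ)`-module `M`: a finite `ℤ_(p)`-algebra of
Galois-equivariant functions `M → ℚ̄`, separating points and stable under comultiplication.

For the LOCAL analysis at `p` (connected component, "points reducing to the identity") one needs
the same notion over the ring `W` of integers of the inertia field (a discrete valuation ring with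
uniformiser `p`), with equivariance only under the inertia group.  This file fixes the generic
vocabulary:

* `Base Ω G`     : a subring `W ⊆ Ω` of a field with a group action, `W` a principal ideal ring,
                   fixed by `G`, such that every `G`-fixed element of `Ω` is a fraction of elements of
                   `W` and every `G`-fixed element integral over `W` lies in `W`;
* `GFunOrder S M act` : a function order over `S.W` on `(M, act)`, `act : G → M → M`
                   (field by field the same as `Flat44.FunOrder`);
* `GFunOrder.IsLocalAt 𝔪 F` : all functions of the order are constant modulo `𝔪`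
                   (for `𝔪` the maximal ideal of a valuation ring of `Ω` above `W`: the group scheme
                   is local/connected);
* `GFunOrder.redZero 𝔪 F` : the set of points of `M` reducing to `0` modulo `𝔪`.
-/
import Mathlib

set_option autoImplicit false

noncomputable section

namespace Fermat.Agent.S33P.GFun

/-- The base of a generic function order: a subring `W` of a field `Ω` with a `G`-action. -/
structure Base (Ω : Type) [Field Ω] (G : Type) [Group G] [MulSemiringAction G Ω] where
  /-- the base ring -/
  W : Subring Ω
  /-- `W` is a principal ideal ring (in the application: a discrete valuation ring) -/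
  pid : IsPrincipalIdealRing W
  /-- `G` fixes `W` -/
  fixed : ∀ w ∈ W, ∀ g : G, g • w = w
  /-- the `G`-fixed elements of `Ω` are fractions of elements of `W` -/
  frac : ∀ x : Ω, (∀ g : G, g • x = x) → ∃ a ∈ W, ∃ b ∈ W, b ≠ 0 ∧ x * b = a
  /-- a `G`-fixed element integral over `W` lies in `W` -/
  closed : ∀ x : Ω, (∀ g : G, g • x = x) → IsIntegral W x → x ∈ W

variable {Ω : Type} [Field Ω] {G : Type} [Group G] [MulSemiringAction G Ω]

instance (S : Base Ω G) : IsPrincipalIdealRing S.W := S.pid

/-- A function order over `S.W` on `(M, act)`: a finite `S.W`-subalgebra of the algebra of functions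
`M → Ω` consisting of `G`-equivariant functions, separating the points of `M`, stable under the
comultiplication `b ↦ ((x, y) ↦ b (x + y))` (written as a finite sum `∑ u i x * v i y`) and the
antipode `b ↦ b ∘ neg`, with `b 0 ∈ W`. -/
structure GFunOrder (S : Base Ω G) (M : Type) [AddCommGroup M] (act : G → M → M) where
  /-- the order -/
  B : Subalgebra S.W (M → Ω)
  fg : Module.Finite S.W B
  equivariant : ∀ b ∈ B, ∀ (g : G) (x : M), b (act g x) = g • b x
  separates : ∀ x y : M, (∀ b ∈ B, b x = b y) → x = y
  comul_mem : ∀ b ∈ B, ∃ (ι : Type) (_ : Fintype ι) (u v : ι → M → Ω),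
    (∀ i, u i ∈ B) ∧ (∀ i, v i ∈ B) ∧ ∀ x y, b (x + y) = ∑ i, u i x * v i y
  neg_mem : ∀ b ∈ B, (fun x => b (-x)) ∈ B
  zero_mem : ∀ b ∈ B, b 0 ∈ S.W

namespace GFunOrder

variable {S : Base Ω G} {M : Type} [AddCommGroup M] {act : G → M → M}

instance (F : GFunOrder S M act) : Module.Finite S.W F.B := F.fg

/-- The order is local at `𝔪` (a subset of `Ω`, in the application the maximal ideal of a valuation
ring of `Ω` containing `W`): every function of the order is constant modulo `𝔪`. -/
def IsLocalAt (𝔪 : Set Ω) (F : GFunOrder S M act) : Prop :=
  ∀ b ∈ F.B, ∀ x : M, b x - b 0 ∈ 𝔪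

/-- The points of `M` reducing to `0` modulo `𝔪`. -/
def redZero (𝔪 : Set Ω) (F : GFunOrder S M act) : Set M :=
  {x | ∀ b ∈ F.B, b x - b 0 ∈ 𝔪}

theorem mem_redZero {𝔪 : Set Ω} {F : GFunOrder S M act} {x : M} :
    x ∈ F.redZero 𝔪 ↔ ∀ b ∈ F.B, b x - b 0 ∈ 𝔪 := Iff.rfl

theorem isLocalAt_iff {𝔪 : Set Ω} {F : GFunOrder S M act} :
    F.IsLocalAt 𝔪 ↔ ∀ x, x ∈ F.redZero 𝔪 :=
  ⟨fun h x b hb => h b hb x, fun h b hb x => h x b hb⟩

end GFunOrder

end Fermat.Agent.S33P.GFun
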