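/-
Programme S33, brick O1-EXCL (770) in the GENERIC function-order vocabulary `S33P/GFun/Defs`
(helper64): **over an unramified base and for `p` odd there is no LOCAL function order on a group of
order `p` with trivial `G`-action.**

`not_isLocalAt_of_trivial` is the adapter of `HopfExcl64.not_local_of_trivial` (the operator form of the
exclusion) to `GFunOrder`:

* trivial action ⇒ every value `b x` is `G`-fixed and integral over `W`, hence in `W` (`S.closed`):
  `apply_mem_of_trivial`;
* `separates` ⇒ full rank (Lagrange interpolation): `exists_smul_mem_of_trivial`;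
* `P := ` the integral closure of `W` in `Ω`; `p⁻¹ ∉ W` and `S.closed` ⇒ `p` is not a unit of `P`;
* the character `χ` of `M ≃ ℤ/p` with `χ c = ζ`.
-/
import Mathlib
import Fermat.Agent.S33P.GFun.Defs
import Fermat.Agent.S33P.HopfExcl64.OrderP

set_option autoImplicit false
set_option linter.unusedSectionVars false
set_option linter.style.haveILetI false

noncomputable section

namespace Fermat.Agent.S33P.GFun

open Fermat.Agent.S33P.HopfExcl64

variable {Ω : Type} [Field Ω] {G : Type} [Group G] [MulSemiringAction G Ω]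
  {S : Base Ω G} {M : Type} [AddCommGroup M] {act : G → M → M}

namespace GFunOrder

/-- Evaluation at a point, as a `W`-algebra map on the order. -/
def evalAt (F : GFunOrder S M act) (x : M) : F.B →ₐ[S.W] Ω :=
  (Pi.evalAlgHom S.W (fun _ : M => Ω) x).comp F.B.val

@[simp] theorem evalAt_apply (F : GFunOrder S M act) (x : M) (b : F.B) :
    F.evalAt x b = (b : M → Ω) x := rfl

/-- The values of the functions of an order are integral over `W`. -/
theorem isIntegral_apply_excl (F : GFunOrder S M act) {b : M → Ω} (hb : b ∈ F.B) (x : M) :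
    IsIntegral S.W (b x) := by
  have h1 : IsIntegral S.W (⟨b, hb⟩ : F.B) := Algebra.IsIntegral.isIntegral _
  exact h1.map (F.evalAt x)

/-- With trivial action the functions of an order are `W`-valued. -/
theorem apply_mem_of_trivial (F : GFunOrder S M act) (htriv : ∀ g x, act g x = x) {b : M → Ω}
    (hb : b ∈ F.B) (x : M) : b x ∈ S.W := by
  refine S.closed _ (fun g => ?_) (F.isIntegral_apply_excl hb x)
  rw [← F.equivariant b hb g x, htriv]

end GFunOrder

/-- `W`-valued functions as `Ω`-valued functions, as an algebra map. -/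
def toΩAlg (S : Base Ω G) (M : Type) : (M → S.W) →ₐ[S.W] (M → Ω) :=
  (Algebra.ofId S.W Ω).compLeft M

@[simp] theorem toΩAlg_apply (f : M → S.W) (x : M) : toΩAlg S M f x = (f x : Ω) := rfl

namespace GFunOrder

/-- The `W`-valued form of an order. -/
def wForm (F : GFunOrder S M act) : Subalgebra S.W (M → S.W) := F.B.comap (toΩAlg S M)

theorem mem_wForm (F : GFunOrder S M act) {f : M → S.W} :
    f ∈ F.wForm ↔ (fun x => (f x : Ω)) ∈ F.B := Iff.rfl

/-- With trivial action every function of the order comes from the `W`-valued form. -/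
theorem exists_wForm_of_trivial (F : GFunOrder S M act) (htriv : ∀ g x, act g x = x) {b : M → Ω}
    (hb : b ∈ F.B) : ∃ f ∈ F.wForm, ∀ x, (f x : Ω) = b x :=
  ⟨fun x => ⟨b x, F.apply_mem_of_trivial htriv hb x⟩, hb, fun _ => rfl⟩

/-- **Full rank** (Lagrange interpolation), trivial action. -/
theorem exists_smul_mem_of_trivial [Finite M] (F : GFunOrder S M act)
    (htriv : ∀ g x, act g x = x) :
    ∃ d : S.W, (d : Ω) ≠ 0 ∧ ∀ f : M → S.W, d • f ∈ F.wForm := by
  classical
  haveI : Fintype M := Fintype.ofFinite M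
  -- separating functions, `W`-valued
  have hsep : ∀ x y : M, x ≠ y → ∃ f ∈ F.wForm, f x ≠ f y := by
    intro x y hxy
    by_contra hcon
    push Not at hcon
    refine hxy (F.separates x y fun b hb => ?_)
    obtain ⟨f, hf, hfb⟩ := F.exists_wForm_of_trivial htriv hb
    rw [← hfb x, ← hfb y, hcon f hf]
  choose! s hs hsne using hsep
  -- the Lagrange functions `e x = ∏_{y ≠ x} (s x y - s x y (y))`
  let e : M → (M → S.W) := fun x =>
    ∏ y ∈ Finset.univ.erase x, (s x y - algebraMap S.W (M → S.W) (s x y y))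
  have he : ∀ x, e x ∈ F.wForm := fun x =>
    Subalgebra.prod_mem _ fun y hy =>
      Subalgebra.sub_mem _ (hs x y (Finset.ne_of_mem_erase hy).symm) (Subalgebra.algebraMap_mem _ _)
  have heval : ∀ x z, e x z = ∏ y ∈ Finset.univ.erase x, (s x y z - s x y y) := by
    intro x z
    simp only [e, Finset.prod_apply, Pi.sub_apply, Pi.algebraMap_apply, Algebra.algebraMap_self,
      RingHom.id_apply]
  have hez : ∀ x z, z ≠ x → e x z = 0 := by
    intro x z hzx
    rw [heval]
    exact Finset.prod_eq_zero (Finset.mem_erase.2 ⟨hzx, Finset.mem_univ z⟩) (sub_self _)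
  have hex : ∀ x, e x x ≠ 0 := by
    intro x
    rw [heval]
    exact Finset.prod_ne_zero_iff.2 fun y hy =>
      sub_ne_zero.2 (hsne x y (Finset.ne_of_mem_erase hy).symm)
  refine ⟨∏ x, e x x, ?_, fun f => ?_⟩
  · have : (∏ x, e x x) ≠ 0 := Finset.prod_ne_zero_iff.2 fun x _ => hex x
    exact fun h => this (Subtype.ext h)
  · have hsum : (∏ x, e x x) • f = ∑ x, (f x * ∏ x' ∈ Finset.univ.erase x, e x' x') • e x := by
      funext z
      rw [Finset.sum_apply, Pi.smul_apply, smul_eq_mul, Finset.sum_eq_single z]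
      · rw [Pi.smul_apply, smul_eq_mul, ← Finset.mul_prod_erase Finset.univ _ (Finset.mem_univ z)]
        ring
      · intro x _ hxz
        rw [Pi.smul_apply, hez x z (Ne.symm hxz), smul_zero]
      · intro h; exact absurd (Finset.mem_univ z) h
    rw [hsum]
    exact Subalgebra.sum_mem _ fun x _ => Subalgebra.smul_mem _ (he x) _

end GFunOrder

/-- **No local function order of order `p` with trivial action over an unramified base, `p` odd.** -/
theorem not_isLocalAt_of_trivial [CharZero Ω] (S : Base Ω G) {p : ℕ} (hp : p.Prime) (hp2 : p ≠ 2)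
    (hpW : ((p : Ω))⁻¹ ∉ S.W) {ζ : Ω} (hζ : IsPrimitiveRoot ζ p) (𝔪 : Set Ω)
    (h𝔪 : ∀ w ∈ S.W, w ∈ 𝔪 → ∃ w' ∈ S.W, w = p * w') {M : Type} [AddCommGroup M]
    (hM : Nat.card M = p) {act : G → M → M} (htriv : ∀ g x, act g x = x)
    (F : GFunOrder S M act) : ¬ F.IsLocalAt 𝔪 := by
  classical
  intro hloc
  haveI : Fact p.Prime := ⟨hp⟩
  haveI : NeZero p := ⟨hp.ne_zero⟩
  haveI : Finite M := Nat.finite_of_card_ne_zero (hM ▸ hp.ne_zero)
  -- the character
  let e : M ≃+ ZMod p := addEquivOfPrimeCardEq hM (Nat.card_zmod p)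
  let χ : AddChar M Ω := (AddChar.zmodChar p hζ.pow_eq_one).compAddMonoidHom e.toAddMonoidHom
  let c : M := e.symm 1
  have hχc : χ c ≠ 1 := by
    have h1 : χ c = ζ := by
      show AddChar.zmodChar p hζ.pow_eq_one (e (e.symm 1)) = ζ
      rw [AddEquiv.apply_symm_apply, AddChar.zmodChar_apply, ZMod.val_one, pow_one]
    rw [h1]
    exact hζ.ne_one hp.one_lt
  have hpc : p • c = 0 := by
    have := card_nsmul_eq_zero' (G := M) (x := c)
    rwa [hM] at this
  -- the integral closure
  let P : Subring Ω := (integralClosure S.W Ω).toSubring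
  have hp0 : (p : Ω) ≠ 0 := Nat.cast_ne_zero.2 hp.ne_zero
  have hpP : ∀ z ∈ P, (p : Ω) * z ≠ 1 := by
    intro z hz hpz
    have hz' : z = (p : Ω)⁻¹ := eq_inv_of_mul_eq_one_right hpz
    refine hpW (S.closed _ (fun g => ?_) (hz' ▸ hz))
    have hg : g • (p : Ω) = p := map_natCast (MulSemiringAction.toRingHom G Ω g) p
    rw [smul_inv'', hg]
  haveI : IsNoetherianRing S.W := inferInstance
  refine not_local_of_trivial (W := S.W) (Ω := Ω) (C := M) P (fun x hx => hx) hp hp2 hp0 hpP hpc χ
    hχc F.wForm (F.exists_smul_mem_of_trivial htriv) ?_ ?_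
  · -- `Δ`-closed
    intro h hh
    obtain ⟨ι, _, u, v, hu, hv, huv⟩ := F.comul_mem _ hh
    choose u' hu' huu' using fun i => F.exists_wForm_of_trivial htriv (hu i)
    choose v' hv' hvv' using fun i => F.exists_wForm_of_trivial htriv (hv i)
    let eι := Fintype.equivFin ι
    refine ⟨Fintype.card ι, fun k => u' (eι.symm k), fun k => v' (eι.symm k),
      fun k => hu' _, fun k => hv' _, fun x y => ?_⟩
    apply Subtype.ext
    have h1 : ((h (x + y) : S.W) : Ω) = ∑ i, u i x * v i y := huv x y
    rw [h1, ← eι.symm.sum_comp]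
    push_cast
    refine Finset.sum_congr rfl fun k _ => ?_
    rw [huu', hvv']
  · -- local, unramified
    intro h hh x
    have h1 : ((h x - h 0 : S.W) : Ω) ∈ 𝔪 := by
      have := hloc _ hh x
      simpa using this
    obtain ⟨w', hw', hww'⟩ := h𝔪 _ (h x - h 0).2 h1
    exact ⟨⟨w', hw'⟩, Subtype.ext (by rw [hww']; simp)⟩

end Fermat.Agent.S33P.GFun
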