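/-
Programme S33 (design report 1237, helper3), brick O3a: the points reducing to `0`.

For a generic function order `F` on `(M, act)` over `S.W` and a "place" `(P, 𝔪)` of `Ω` above `W`
(`P` a subring containing everything integral over `W`, `𝔪` an ideal of `P`, `G` acting as a subgroup
of the INERTIA group of `(P, 𝔪)`), the set `F.redZero 𝔪` of points of `M` reducing to `0`
(= the points of the connected component of the group scheme) is

* a subgroup of `M` (`redZeroSubgroup`),
* stable under `G` (`act_mem_redZero`),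
* and `G` acts trivially on the quotient: `act g x - x ∈ redZero` (`act_sub_mem_redZero`).
-/
import Mathlib
import Fermat.Agent.S33P.GFun.Defs

set_option autoImplicit false

noncomputable section

namespace Fermat.Agent.S33P.GFun

variable {Ω : Type} [Field Ω] {G : Type} [Group G] [MulSemiringAction G Ω]

/-- A place of `Ω` above the base `S`, on which `G` acts through inertia. -/
structure Place (S : Base Ω G) where
  /-- the valuation ring -/
  P : Subring Ω
  /-- its maximal ideal, as a subset of `Ω` -/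
  𝔪 : Set Ω
  integral_mem : ∀ x : Ω, IsIntegral S.W x → x ∈ P
  zero_mem : (0 : Ω) ∈ 𝔪
  add_mem : ∀ x ∈ 𝔪, ∀ y ∈ 𝔪, x + y ∈ 𝔪
  neg_mem : ∀ x ∈ 𝔪, -x ∈ 𝔪
  mul_mem : ∀ a ∈ P, ∀ x ∈ 𝔪, a * x ∈ 𝔪
  /-- `G` is contained in the decomposition group -/
  smul_mem : ∀ (g : G), ∀ x ∈ 𝔪, g • x ∈ 𝔪
  /-- `G` is contained in the inertia group -/
  inertia : ∀ (g : G), ∀ x ∈ P, g • x - x ∈ 𝔪

namespace Place

variable {S : Base Ω G} (Q : Place S)

theorem sub_mem {x y : Ω} (hx : x ∈ Q.𝔪) (hy : y ∈ Q.𝔪) : x - y ∈ Q.𝔪 := by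
  rw [sub_eq_add_neg]
  exact Q.add_mem _ hx _ (Q.neg_mem _ hy)

theorem mul_mem' {a x : Ω} (ha : a ∈ Q.P) (hx : x ∈ Q.𝔪) : x * a ∈ Q.𝔪 := by
  rw [mul_comm]
  exact Q.mul_mem _ ha _ hx

theorem sum_mem {ι : Type} (s : Finset ι) (f : ι → Ω) (h : ∀ i ∈ s, f i ∈ Q.𝔪) :
    ∑ i ∈ s, f i ∈ Q.𝔪 := by
  classical
  induction s using Finset.induction_on with
  | empty => simpa using Q.zero_mem
  | insert a t hat ih =>
    rw [Finset.sum_insert hat]
    exact Q.add_mem _ (h a (Finset.mem_insert_self a t)) _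
      (ih fun i hi => h i (Finset.mem_insert_of_mem hi))

end Place

namespace GFunOrder

variable {S : Base Ω G} {M : Type} [AddCommGroup M] {act : G → M → M} (F : GFunOrder S M act)

/-- evaluation at a point, as an algebra homomorphism -/
def evalHom (x : M) : F.B →ₐ[S.W] Ω := (Pi.evalAlgHom S.W (fun _ : M => Ω) x).comp F.B.val

@[simp] theorem evalHom_apply (x : M) (a : F.B) : F.evalHom x a = (a : M → Ω) x := rfl

/-- values of elements of a function order are integral over `W` -/
theorem isIntegral_apply {a : M → Ω} (ha : a ∈ F.B) (x : M) : IsIntegral S.W (a x) := by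
  have h1 : IsIntegral S.W (⟨a, ha⟩ : F.B) := IsIntegral.of_finite S.W _
  exact h1.map (F.evalHom x)

theorem apply_mem_P (Q : Place S) {a : M → Ω} (ha : a ∈ F.B) (x : M) : a x ∈ Q.P :=
  Q.integral_mem _ (F.isIntegral_apply ha x)

theorem zero_mem_redZero (Q : Place S) : (0 : M) ∈ F.redZero Q.𝔪 := fun b _ => by
  rw [sub_self]; exact Q.zero_mem

theorem add_mem_redZero (Q : Place S) {x y : M} (hx : x ∈ F.redZero Q.𝔪)
    (hy : y ∈ F.redZero Q.𝔪) : x + y ∈ F.redZero Q.𝔪 := by
  intro b hb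
  obtain ⟨ι, _, u, v, hu, hv, huv⟩ := F.comul_mem b hb
  have h0 : b 0 = ∑ i, u i 0 * v i 0 := by
    have := huv 0 0
    rwa [add_zero] at this
  rw [huv, h0, ← Finset.sum_sub_distrib]
  refine Q.sum_mem _ _ fun i _ => ?_
  have e : u i x * v i y - u i 0 * v i 0 =
      v i y * (u i x - u i 0) + u i 0 * (v i y - v i 0) := by ring
  rw [e]
  exact Q.add_mem _ (Q.mul_mem _ (F.apply_mem_P Q (hv i) y) _ (hx _ (hu i))) _
    (Q.mul_mem _ (F.apply_mem_P Q (hu i) 0) _ (hy _ (hv i)))

theorem neg_mem_redZero (Q : Place S) {x : M} (hx : x ∈ F.redZero Q.𝔪) :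
    -x ∈ F.redZero Q.𝔪 := by
  intro b hb
  have h := hx _ (F.neg_mem b hb)
  simpa using h

/-- The points reducing to `0`, as a subgroup. -/
def redZeroSubgroup (Q : Place S) : AddSubgroup M where
  carrier := F.redZero Q.𝔪
  zero_mem' := F.zero_mem_redZero Q
  add_mem' := fun hx hy => F.add_mem_redZero Q hx hy
  neg_mem' := fun hx => F.neg_mem_redZero Q hx

theorem mem_redZeroSubgroup (Q : Place S) {x : M} :
    x ∈ F.redZeroSubgroup Q ↔ ∀ b ∈ F.B, b x - b 0 ∈ Q.𝔪 := Iff.rfl

/-- `G` (inside the decomposition group) preserves the points reducing to `0`. -/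
theorem act_mem_redZero (Q : Place S) (g : G) {x : M} (hx : x ∈ F.redZeroSubgroup Q) :
    act g x ∈ F.redZeroSubgroup Q := by
  intro b hb
  have h0 : g • b 0 = b 0 := S.fixed _ (F.zero_mem b hb) g
  rw [F.equivariant b hb, ← h0, ← smul_sub]
  exact Q.smul_mem g _ (hx b hb)

/-- `G` (inside the inertia group) acts trivially modulo the points reducing to `0`. -/
theorem act_sub_mem_redZero (Q : Place S) (g : G) (x : M) :
    act g x - x ∈ F.redZeroSubgroup Q := by
  intro b hb
  obtain ⟨ι, _, u, v, hu, hv, huv⟩ := F.comul_mem b hb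
  have h0 : b 0 = ∑ i, u i x * v i (-x) := by
    have := huv x (-x)
    rwa [add_neg_cancel] at this
  have e : act g x - x = act g x + -x := sub_eq_add_neg _ _
  rw [e, huv, h0, ← Finset.sum_sub_distrib]
  refine Q.sum_mem _ _ fun i _ => ?_
  rw [F.equivariant _ (hu i), ← sub_mul]
  exact Q.mul_mem' (F.apply_mem_P Q (hv i) (-x)) (Q.inertia g _ (F.apply_mem_P Q (hu i) x))

end GFunOrder

end Fermat.Agent.S33P.GFun
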